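import Fermat.Agent.S24.Ana.Defs

/-!
# S24 / B1 / J: elementary facts on `E₄`, `E₆`, `Δ` and `j`
(transformation behaviour, holomorphy, special values at `i` and `ρ`)
-/

set_option autoImplicit false

noncomputable section

namespace Fermat.Agent.S24

open UpperHalfPlane ModularForm
open scoped MatrixGroups Manifold

/-- The automorphy equation of a level one slash invariant form of weight `k : ℕ`, with
explicit integer entries. -/
theorem JBasic.slash_eqn {F : Type*} [FunLike F ℍ ℂ] {k : ℕ}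
    [SlashInvariantFormClass F 𝒮ℒ (k : ℤ)] (f : F) (g : SL(2, ℤ)) (z : ℍ) :
    f (g • z) = (((g 1 0 : ℤ) : ℂ) * z + ((g 1 1 : ℤ) : ℂ)) ^ k * f z := by
  have h := SlashInvariantForm.slash_action_eqn' f (γ := Matrix.SpecialLinearGroup.mapGL ℝ g)
    (MonoidHom.mem_range.mpr ⟨g, rfl⟩) z
  rw [zpow_natCast] at h
  have h0 : ((((Matrix.SpecialLinearGroup.mapGL ℝ g : GL (Fin 2) ℝ) 1 0 : ℝ)) : ℂ)
      = ((g 1 0 : ℤ) : ℂ) := by
    simp
  have h1 : ((((Matrix.SpecialLinearGroup.mapGL ℝ g : GL (Fin 2) ℝ) 1 1 : ℝ)) : ℂ)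
      = ((g 1 1 : ℤ) : ℂ) := by
    simp
  rw [h0, h1] at h
  exact h

theorem E4_smul (g : SL(2, ℤ)) (z : ℍ) :
    E₄ (g • z) = (((g 1 0 : ℤ) : ℂ) * z + ((g 1 1 : ℤ) : ℂ)) ^ 4 * E₄ z :=
  JBasic.slash_eqn (k := 4) E₄ g z

theorem E6_smul (g : SL(2, ℤ)) (z : ℍ) :
    E₆ (g • z) = (((g 1 0 : ℤ) : ℂ) * z + ((g 1 1 : ℤ) : ℂ)) ^ 6 * E₆ z :=
  JBasic.slash_eqn (k := 6) E₆ g z

theorem disc_smul (g : SL(2, ℤ)) (z : ℍ) :
    discriminant (g • z) =
      (((g 1 0 : ℤ) : ℂ) * z + ((g 1 1 : ℤ) : ℂ)) ^ 12 * discriminant z :=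
  JBasic.slash_eqn (k := 12) CuspForm.discriminant g z

theorem E4_mdiff : MDifferentiable 𝓘(ℂ) 𝓘(ℂ) (fun z : ℍ => E₄ z) :=
  ModularFormClass.holo E₄

theorem E6_mdiff : MDifferentiable 𝓘(ℂ) 𝓘(ℂ) (fun z : ℍ => E₆ z) :=
  ModularFormClass.holo E₆

theorem disc_mdiff : MDifferentiable 𝓘(ℂ) 𝓘(ℂ) (fun z : ℍ => discriminant z) :=
  CuspFormClass.holo CuspForm.discriminant

/-- `1728 Δ = E₄³ - E₆²`. -/
theorem disc_eq (z : ℍ) : 1728 * discriminant z = E₄ z ^ 3 - E₆ z ^ 2 := by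
  rw [ModularForm.discriminant_eq_E₄_cube_sub_E₆_sq z]
  ring

theorem Jfun_mdiff_impl : MDifferentiable 𝓘(ℂ) 𝓘(ℂ) Jfun := by
  have h : MDifferentiable 𝓘(ℂ) 𝓘(ℂ)
      ((fun z : ℍ => E₄ z) ^ 3 / (fun z : ℍ => discriminant z)) :=
    (E4_mdiff.pow 3).div disc_mdiff discriminant_ne_zero
  exact h

/-- The automorphy factor `c z + d` does not vanish. -/
theorem JBasic.cz_add_d_ne_zero (g : SL(2, ℤ)) (z : ℍ) :
    ((g 1 0 : ℤ) : ℂ) * z + ((g 1 1 : ℤ) : ℂ) ≠ 0 := by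
  intro h
  have h1 := disc_smul g z
  rw [h, zero_pow (by norm_num), zero_mul] at h1
  exact discriminant_ne_zero _ h1

theorem Jfun_smul_impl (g : SL(2, ℤ)) (z : ℍ) : Jfun (g • z) = Jfun z := by
  have hd := JBasic.cz_add_d_ne_zero g z
  have hΔ := discriminant_ne_zero z
  unfold Jfun
  rw [E4_smul, disc_smul]
  field_simp

/-- `j - 1728 = E₆² / Δ`. -/
theorem Jfun_sub_1728 (z : ℍ) : Jfun z - 1728 = E₆ z ^ 2 / discriminant z := by
  have hΔ := discriminant_ne_zero z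
  unfold Jfun
  rw [eq_div_iff hΔ, sub_mul, div_mul_cancel₀ _ hΔ]
  linear_combination -(disc_eq z)

theorem Jfun_eq_zero_iff (z : ℍ) : Jfun z = 0 ↔ E₄ z = 0 := by
  have hΔ := discriminant_ne_zero z
  unfold Jfun
  rw [div_eq_zero_iff]
  constructor
  · rintro (h | h)
    · exact pow_eq_zero_iff (by norm_num) |>.1 h
    · exact absurd h hΔ
  · intro h
    left
    rw [h]
    norm_num

theorem Jfun_eq_1728_iff (z : ℍ) : Jfun z = 1728 ↔ E₆ z = 0 := by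
  have hΔ := discriminant_ne_zero z
  rw [← sub_eq_zero, Jfun_sub_1728, div_eq_zero_iff]
  constructor
  · rintro (h | h)
    · exact pow_eq_zero_iff (by norm_num) |>.1 h
    · exact absurd h hΔ
  · intro h
    left
    rw [h]
    norm_num

theorem S_smul_I_impl : ModularGroup.S • UpperHalfPlane.I = UpperHalfPlane.I :=
  ModularGroup.stabilizer_I.mpr (by simp)

/-- Our `rho` is Mathlib's `UpperHalfPlane.ρ`. -/
theorem JBasic.rho_eq : rho = UpperHalfPlane.ρ := by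
  apply UpperHalfPlane.ext
  apply Complex.ext <;> simp [rho, UpperHalfPlane.ρ]

theorem ST_smul_rho_impl : (ModularGroup.S * ModularGroup.T) • rho = rho := by
  rw [JBasic.rho_eq]
  exact ModularGroup.stabilizer_ρ.mpr (by simp)

theorem E6_I : E₆ UpperHalfPlane.I = 0 := by
  have h := E6_smul ModularGroup.S UpperHalfPlane.I
  rw [S_smul_I_impl] at h
  have h10 : (ModularGroup.S 1 0 : ℤ) = 1 := by simp [ModularGroup.S]
  have h11 : (ModularGroup.S 1 1 : ℤ) = 0 := by simp [ModularGroup.S]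
  rw [h10, h11] at h
  have hI : ((UpperHalfPlane.I : ℍ) : ℂ) = Complex.I := rfl
  rw [hI] at h
  have hI6 : (((1 : ℤ) : ℂ) * Complex.I + ((0 : ℤ) : ℂ)) ^ 6 = -1 := by
    have : (Complex.I) ^ 6 = -1 := by
      calc Complex.I ^ 6 = (Complex.I ^ 2) ^ 3 := by ring
        _ = -1 := by rw [Complex.I_sq]; norm_num
    simp [this]
  rw [hI6] at h
  have h2 : (2 : ℂ) * E₆ UpperHalfPlane.I = 0 := by linear_combination h
  exact (mul_eq_zero.1 h2).resolve_left (by norm_num)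

theorem E4_rho : E₄ rho = 0 := by
  have h := E4_smul (ModularGroup.S * ModularGroup.T) rho
  rw [ST_smul_rho_impl] at h
  have h10 : ((ModularGroup.S * ModularGroup.T) 1 0 : ℤ) = 1 := by decide
  have h11 : ((ModularGroup.S * ModularGroup.T) 1 1 : ℤ) = 1 := by decide
  rw [h10, h11] at h
  have hsq : ((rho : ℍ) : ℂ) ^ 2 = -(rho : ℂ) - 1 := by
    rw [JBasic.rho_eq]
    exact UpperHalfPlane.ρ_sq
  have h4 : (((1 : ℤ) : ℂ) * (rho : ℂ) + ((1 : ℤ) : ℂ)) ^ 4 = -(rho : ℂ) - 1 := by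
    push_cast
    have e1 : (1 * (rho : ℂ) + 1) ^ 2 = (rho : ℂ) := by linear_combination hsq
    calc (1 * (rho : ℂ) + 1) ^ 4 = ((1 * (rho : ℂ) + 1) ^ 2) ^ 2 := by ring
      _ = (rho : ℂ) ^ 2 := by rw [e1]
      _ = -(rho : ℂ) - 1 := hsq
  rw [h4] at h
  have h2 : ((rho : ℂ) + 2) * E₄ rho = 0 := by linear_combination h
  refine (mul_eq_zero.1 h2).resolve_left ?_
  intro h0
  have him := congrArg Complex.im h0
  have hpos : 0 < rho.im := rho.im_pos
  simp at him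
  linarith

theorem Jfun_I_impl : Jfun UpperHalfPlane.I = 1728 :=
  (Jfun_eq_1728_iff _).2 E6_I

theorem Jfun_rho_impl : Jfun rho = 0 :=
  (Jfun_eq_zero_iff _).2 E4_rho

end Fermat.Agent.S24
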