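import Fermat.Agent.S24.Ana.Defs

/-!
# S24 / B1 / J: the derivative of a holomorphic function with a limit at `i∞` tends to `0`
-/

set_option autoImplicit false

noncomputable section

namespace Fermat.Agent.S24

open UpperHalfPlane Filter Topology
open scoped MatrixGroups Manifold Derivative

/-- Cauchy estimate: if `f` is holomorphic on `ℍ` and has a limit at `i∞`, then its derivative
tends to `0` at `i∞`. -/
theorem deriv_tendsto_zero_atImInfty {f : ℍ → ℂ} (hf : MDifferentiable 𝓘(ℂ) 𝓘(ℂ) f) {c : ℂ}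
    (h : Tendsto f atImInfty (𝓝 c)) :
    Tendsto (fun z : ℍ => deriv (f ∘ ofComplex) (z : ℂ)) atImInfty (𝓝 0) := by
  have hdiff : DifferentiableOn ℂ (f ∘ ofComplex) {z : ℂ | 0 < z.im} :=
    UpperHalfPlane.mdifferentiable_iff.mp hf
  have h' : IsZeroAtImInfty (fun z : ℍ => f z - c) := by
    have h0 : Tendsto (fun z : ℍ => f z - c) atImInfty (𝓝 (c - c)) := h.sub_const c
    rw [sub_self] at h0
    exact h0
  refine (isZeroAtImInfty_iff (f := fun z : ℍ => deriv (f ∘ ofComplex) (z : ℂ))).mpr ?_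
  intro ε hε
  obtain ⟨A, hA⟩ := (isZeroAtImInfty_iff.mp h') ε hε
  refine ⟨max A 0 + 2, fun z hz => ?_⟩
  have hzim : max A 0 + 2 ≤ (z : ℂ).im := hz
  -- points of the closed unit disc around `z` have imaginary part `≥ max A 0 + 1`
  have him : ∀ w ∈ Metric.closedBall (z : ℂ) 1, max A 0 + 1 ≤ w.im := by
    intro w hw
    have h1 : |(w - (z : ℂ)).im| ≤ ‖w - (z : ℂ)‖ := Complex.abs_im_le_norm _
    have h2 : ‖w - (z : ℂ)‖ ≤ 1 := by simpa [dist_eq_norm] using hw
    have h3 := abs_le.mp (h1.trans h2)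
    rw [Complex.sub_im] at h3
    linarith [h3.1]
  have hpos : ∀ w ∈ Metric.closedBall (z : ℂ) 1, 0 < w.im := by
    intro w hw
    have h1 := him w hw
    have h2 : (0 : ℝ) ≤ max A 0 := le_max_right _ _
    linarith
  have hsub : Metric.closedBall (z : ℂ) 1 ⊆ {w : ℂ | 0 < w.im} := fun w hw => hpos w hw
  have hg : DiffContOnCl ℂ (fun w : ℂ => (f ∘ ofComplex) w - c) (Metric.ball (z : ℂ) 1) :=
    (hdiff.sub_const c).diffContOnCl_ball hsub
  have hbound : ∀ w ∈ Metric.sphere (z : ℂ) 1, ‖(fun w : ℂ => (f ∘ ofComplex) w - c) w‖ ≤ ε := by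
    intro w hw
    have hwc : w ∈ Metric.closedBall (z : ℂ) 1 := Metric.sphere_subset_closedBall hw
    have hw' : 0 < w.im := hpos w hwc
    have hAw : A ≤ (⟨w, hw'⟩ : ℍ).im := by
      have h1 := him w hwc
      have h2 : A ≤ max A 0 := le_max_left _ _
      show A ≤ w.im
      linarith
    have h3 := hA ⟨w, hw'⟩ hAw
    simpa [Function.comp_apply, ofComplex_apply_of_im_pos hw'] using h3
  have hcauchy := Complex.norm_deriv_le_of_forall_mem_sphere_norm_le one_pos hg hbound
  have hderiv : deriv (fun w : ℂ => (f ∘ ofComplex) w - c) (z : ℂ) =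
      deriv (f ∘ ofComplex) (z : ℂ) := deriv_sub_const c
  rw [hderiv, div_one] at hcauchy
  exact hcauchy

/-- Same for the normalised derivative `D = (2πi)⁻¹ d/dz`. -/
theorem D_isZeroAtImInfty {f : ℍ → ℂ} (hf : MDifferentiable 𝓘(ℂ) 𝓘(ℂ) f) {c : ℂ}
    (h : Tendsto f atImInfty (𝓝 c)) : IsZeroAtImInfty (D f) := by
  have h1 := (deriv_tendsto_zero_atImInfty hf h).const_mul ((2 * Real.pi * Complex.I)⁻¹)
  rw [mul_zero] at h1
  exact h1

end Fermat.Agent.S24
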