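import Fermat.Agent.S24.Ana.Defs

/-!
# S24 / B1 / J: building level-one modular forms / cusp forms from functions
-/

set_option autoImplicit false

noncomputable section

namespace Fermat.Agent.S24

open UpperHalfPlane ModularForm OnePoint
open scoped MatrixGroups Manifold ModularForm

/-- A holomorphic function on `ℍ` which is weight-`k` invariant under `SL₂(ℤ)` and zero at `i∞`
is a level-one cusp form. -/
def mkCuspFormL1 (k : ℤ) (f : ℍ → ℂ) (hol : MDifferentiable 𝓘(ℂ) 𝓘(ℂ) f)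
    (inv : ∀ γ : SL(2, ℤ), f ∣[k] γ = f) (h0 : IsZeroAtImInfty f) : CuspForm 𝒮ℒ k where
  toFun := f
  slash_action_eq' A hA := by
    obtain ⟨A, rfl⟩ := hA
    exact inv A
  holo' := hol
  zero_at_cusps' hc := by
    rw [Subgroup.IsArithmetic.isCusp_iff_isCusp_SL2Z] at hc
    rw [OnePoint.isZeroAt_iff_forall_SL2Z hc]
    intro γ _
    rw [inv γ]
    exact h0

@[simp]
theorem coe_mkCuspFormL1 (k : ℤ) (f : ℍ → ℂ) (hol : MDifferentiable 𝓘(ℂ) 𝓘(ℂ) f)
    (inv : ∀ γ : SL(2, ℤ), f ∣[k] γ = f) (h0 : IsZeroAtImInfty f) :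
    ⇑(mkCuspFormL1 k f hol inv h0) = f := rfl

/-- A holomorphic function on `ℍ` which is weight-`k` invariant under `SL₂(ℤ)` and bounded at
`i∞` is a level-one modular form. -/
def mkModularFormL1 (k : ℤ) (f : ℍ → ℂ) (hol : MDifferentiable 𝓘(ℂ) 𝓘(ℂ) f)
    (inv : ∀ γ : SL(2, ℤ), f ∣[k] γ = f) (hb : IsBoundedAtImInfty f) : ModularForm 𝒮ℒ k where
  toFun := f
  slash_action_eq' A hA := by
    obtain ⟨A, rfl⟩ := hA
    exact inv A
  holo' := hol
  bdd_at_cusps' hc := by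
    rw [Subgroup.IsArithmetic.isCusp_iff_isCusp_SL2Z] at hc
    rw [OnePoint.isBoundedAt_iff_forall_SL2Z hc]
    intro γ _
    rw [inv γ]
    exact hb

@[simp]
theorem coe_mkModularFormL1 (k : ℤ) (f : ℍ → ℂ) (hol : MDifferentiable 𝓘(ℂ) 𝓘(ℂ) f)
    (inv : ∀ γ : SL(2, ℤ), f ∣[k] γ = f) (hb : IsBoundedAtImInfty f) :
    ⇑(mkModularFormL1 k f hol inv hb) = f := rfl

/-- Weight-`k` slash invariance in terms of the automorphy factor. -/
theorem slash_eq_self_of_smul (k : ℕ) (f : ℍ → ℂ)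
    (h : ∀ (g : SL(2, ℤ)) (z : ℍ),
      f (g • z) = (((g 1 0 : ℤ) : ℂ) * z + ((g 1 1 : ℤ) : ℂ)) ^ k * f z)
    (γ : SL(2, ℤ)) : f ∣[(k : ℤ)] γ = f := by
  funext z
  rw [ModularForm.slash_action_eq'_iff, zpow_natCast]
  exact h γ z

/-- The normalised Eisenstein series of even weight `k ≥ 3` tends to `1` at `i∞`. -/
theorem LevelOne.E_tendsto_one_aux {k : ℕ} (hk : 3 ≤ k) (hk2 : Even k) :
    Filter.Tendsto (fun z : ℍ => ModularForm.E hk z) atImInfty (nhds 1) := by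
  have han : AnalyticAt ℂ (cuspFunction 1 (ModularForm.E hk)) 0 :=
    ModularFormClass.analyticAt_cuspFunction_zero (ModularForm.E hk) one_pos
      one_mem_strictPeriods_SL
  have h0 : cuspFunction 1 (ModularForm.E hk) 0 = 1 := by
    have h1 := EisensteinSeries.E_qExpansion_coeff_zero hk hk2
    rw [UpperHalfPlane.qExpansion_coeff] at h1
    simpa using h1
  have ht := han.continuousAt.tendsto.comp (UpperHalfPlane.qParam_tendsto_atImInfty one_pos)
  rw [h0] at ht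
  refine ht.congr (fun z => ?_)
  exact SlashInvariantFormClass.eq_cuspFunction (ModularForm.E hk) z one_mem_strictPeriods_SL
    one_ne_zero

/-- `E₄ → 1` at `i∞`. -/
theorem E4_tendsto_one : Filter.Tendsto (fun z : ℍ => E₄ z) atImInfty (nhds 1) :=
  LevelOne.E_tendsto_one_aux (by norm_num) ⟨2, rfl⟩

/-- `E₆ → 1` at `i∞`. -/
theorem E6_tendsto_one : Filter.Tendsto (fun z : ℍ => E₆ z) atImInfty (nhds 1) :=
  LevelOne.E_tendsto_one_aux (by norm_num) ⟨3, rfl⟩

end Fermat.Agent.S24
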