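import Fermat.Agent.S24.Ana.J.Basic
import Fermat.Agent.S24.Ana.J.LevelOne
import Fermat.Agent.S24.Ana.J.DerivBound

/-!
# S24 / B1 / J: the derivative of `j` is `c · E₄² E₆ / Δ` with `c ≠ 0`
-/

set_option autoImplicit false

noncomputable section

namespace Fermat.Agent.S24

open UpperHalfPlane ModularForm Filter Topology
open scoped MatrixGroups Manifold ModularForm Derivative

/-- `W = 3·D E₄·E₆ - 2·E₄·D E₆`. -/
def Wfun (z : ℍ) : ℂ := 3 * D (fun z : ℍ => E₄ z) z * E₆ z - 2 * E₄ z * D (fun z : ℍ => E₆ z) z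

theorem Wfun_mdiff : MDifferentiable 𝓘(ℂ) 𝓘(ℂ) Wfun := by
  have h4 := Derivative.normalizedDerivOfComplex_mdifferentiable E4_mdiff
  have h6 := Derivative.normalizedDerivOfComplex_mdifferentiable E6_mdiff
  have hc3 : MDifferentiable 𝓘(ℂ) 𝓘(ℂ) (fun _ : ℍ => (3 : ℂ)) := mdifferentiable_const
  have hc2 : MDifferentiable 𝓘(ℂ) 𝓘(ℂ) (fun _ : ℍ => (2 : ℂ)) := mdifferentiable_const
  exact ((hc3.mul h4).mul E6_mdiff).sub ((hc2.mul E4_mdiff).mul h6)

theorem Deriv.E4_slash (γ : SL(2, ℤ)) : (fun z : ℍ => E₄ z) ∣[(4 : ℤ)] γ = (fun z : ℍ => E₄ z) :=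
  SlashInvariantForm.slash_action_eqn E₄ (γ : GL (Fin 2) ℝ) ⟨γ, rfl⟩

theorem Deriv.E6_slash (γ : SL(2, ℤ)) : (fun z : ℍ => E₆ z) ∣[(6 : ℤ)] γ = (fun z : ℍ => E₆ z) :=
  SlashInvariantForm.slash_action_eqn E₆ (γ : GL (Fin 2) ℝ) ⟨γ, rfl⟩

theorem Deriv.Wfun_eq_serre :
    Wfun = (3 : ℂ) • (Derivative.serreDerivative 4 (fun z : ℍ => E₄ z) * (fun z : ℍ => E₆ z)) -
      (2 : ℂ) • ((fun z : ℍ => E₄ z) * Derivative.serreDerivative 6 (fun z : ℍ => E₆ z)) := by
  ext z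
  simp only [Wfun, Derivative.serreDerivative_apply, Pi.sub_apply, Pi.smul_apply, Pi.mul_apply,
    smul_eq_mul]
  ring

/-- `W` is weight-12 invariant (the non-modular terms of `D E₄`, `D E₆` cancel). -/
theorem Wfun_slash (γ : SL(2, ℤ)) : Wfun ∣[(12 : ℤ)] γ = Wfun := by
  have h4 : Derivative.serreDerivative 4 (fun z : ℍ => E₄ z) ∣[(6 : ℤ)] γ =
      Derivative.serreDerivative 4 (fun z : ℍ => E₄ z) := by
    have := Derivative.serreDerivative_slash_invariant (k := 4) E4_mdiff (Deriv.E4_slash γ)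
    have e : ((4 : ℤ) : ℂ) = 4 := by norm_num
    have e' : (4 : ℤ) + 2 = 6 := by norm_num
    rw [e, e'] at this
    exact this
  have h6 : Derivative.serreDerivative 6 (fun z : ℍ => E₆ z) ∣[(8 : ℤ)] γ =
      Derivative.serreDerivative 6 (fun z : ℍ => E₆ z) := by
    have := Derivative.serreDerivative_slash_invariant (k := 6) E6_mdiff (Deriv.E6_slash γ)
    have e : ((6 : ℤ) : ℂ) = 6 := by norm_num
    have e' : (6 : ℤ) + 2 = 8 := by norm_num
    rw [e, e'] at this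
    exact this
  have e66 : (6 : ℤ) + 6 = 12 := by norm_num
  have e48 : (4 : ℤ) + 8 = 12 := by norm_num
  have m1 : (Derivative.serreDerivative 4 (fun z : ℍ => E₄ z) * (fun z : ℍ => E₆ z)) ∣[(12 : ℤ)] γ =
      Derivative.serreDerivative 4 (fun z : ℍ => E₄ z) * (fun z : ℍ => E₆ z) := by
    have := ModularForm.mul_slash_SL2 6 6 γ (Derivative.serreDerivative 4 (fun z : ℍ => E₄ z))
      (fun z : ℍ => E₆ z)
    rw [h4, Deriv.E6_slash, e66] at this
    exact this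
  have m2 : ((fun z : ℍ => E₄ z) * Derivative.serreDerivative 6 (fun z : ℍ => E₆ z)) ∣[(12 : ℤ)] γ =
      (fun z : ℍ => E₄ z) * Derivative.serreDerivative 6 (fun z : ℍ => E₆ z) := by
    have := ModularForm.mul_slash_SL2 4 8 γ (fun z : ℍ => E₄ z)
      (Derivative.serreDerivative 6 (fun z : ℍ => E₆ z))
    rw [h6, Deriv.E4_slash, e48] at this
    exact this
  rw [Deriv.Wfun_eq_serre, sub_eq_add_neg, SlashAction.add_slash, SlashAction.neg_slash,
    ModularForm.SL_smul_slash, ModularForm.SL_smul_slash, m1, m2]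

theorem Wfun_isZeroAtImInfty : IsZeroAtImInfty Wfun := by
  have h4 : Tendsto (D (fun z : ℍ => E₄ z)) atImInfty (𝓝 0) :=
    D_isZeroAtImInfty E4_mdiff E4_tendsto_one
  have h6 : Tendsto (D (fun z : ℍ => E₆ z)) atImInfty (𝓝 0) :=
    D_isZeroAtImInfty E6_mdiff E6_tendsto_one
  have h := ((h4.const_mul 3).mul E6_tendsto_one).sub ((E4_tendsto_one.const_mul 2).mul h6)
  have e : (3 * 0 * 1 - 2 * 1 * 0 : ℂ) = 0 := by ring
  rw [e] at h
  refine h.congr fun z => ?_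
  rfl

/-- `W` is a multiple of `Δ`. -/
theorem exists_Wfun_eq : ∃ c : ℂ, ∀ z : ℍ, Wfun z = c * discriminant z := by
  obtain ⟨c, hc⟩ := CuspForm.exists_smul_discriminant_of_weight_eq_twelve
    (mkCuspFormL1 12 Wfun Wfun_mdiff Wfun_slash Wfun_isZeroAtImInfty)
  refine ⟨c, fun z => ?_⟩
  have := congrArg (fun f : CuspForm 𝒮ℒ 12 => f z) hc
  simpa using this.symm

/-- `D j = -W · E₄² E₆ / (1728 Δ²)`. -/
theorem D_Jfun (z : ℍ) :
    D Jfun z = -(Wfun z * E₄ z ^ 2 * E₆ z) / (1728 * discriminant z ^ 2) := by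
  have ha := (UpperHalfPlane.mdifferentiableAt_iff.mp (E4_mdiff z)).hasDerivAt
  have hb := (UpperHalfPlane.mdifferentiableAt_iff.mp (E6_mdiff z)).hasDerivAt
  have hΔ : discriminant z = (E₄ z ^ 3 - E₆ z ^ 2) / 1728 := by
    rw [← disc_eq z]
    field_simp
  have hM : E₄ z ^ 3 - E₆ z ^ 2 ≠ 0 := by
    rw [← disc_eq z]
    exact mul_ne_zero (by norm_num) (discriminant_ne_zero z)
  have hJ : Jfun ∘ ofComplex = fun w : ℂ => 1728 * ((fun z : ℍ => E₄ z) ∘ ofComplex) w ^ 3 /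
      (((fun z : ℍ => E₄ z) ∘ ofComplex) w ^ 3 - ((fun z : ℍ => E₆ z) ∘ ofComplex) w ^ 2) := by
    funext w
    simp only [Function.comp_apply, Jfun]
    rw [← disc_eq (ofComplex w)]
    have := discriminant_ne_zero (ofComplex w)
    field_simp
  have hM' : ((fun z : ℍ => E₄ z) ∘ ofComplex) (z : ℂ) ^ 3 -
      ((fun z : ℍ => E₆ z) ∘ ofComplex) (z : ℂ) ^ 2 ≠ 0 := by
    simpa only [Function.comp_apply, ofComplex_apply] using hM
  have hd := ((ha.pow 3).const_mul 1728).div ((ha.pow 3).sub (hb.pow 2)) hM'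
  have hd' : deriv (fun w : ℂ => 1728 * ((fun z : ℍ => E₄ z) ∘ ofComplex) w ^ 3 /
      (((fun z : ℍ => E₄ z) ∘ ofComplex) w ^ 3 - ((fun z : ℍ => E₆ z) ∘ ofComplex) w ^ 2))
      (z : ℂ) = _ := hd.deriv
  simp only [Derivative.normalizedDerivOfComplex, Wfun]
  rw [hJ, hd']
  simp only [Function.comp_apply, ofComplex_apply, Pi.sub_apply, Pi.pow_apply]
  rw [hΔ]
  field_simp
  ring

/-- `j` is not constant, so its derivative does not vanish identically. -/
theorem exists_deriv_Jfun_ne_zero : ∃ z : ℍ, deriv (Jfun ∘ ofComplex) (z : ℂ) ≠ 0 := by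
  by_contra hcon
  have hcon' : ∀ z : ℍ, deriv (Jfun ∘ ofComplex) (z : ℂ) = 0 := fun z =>
    by_contra fun h => hcon ⟨z, h⟩
  have hdiff : DifferentiableOn ℂ (Jfun ∘ ofComplex) {z : ℂ | 0 < z.im} :=
    UpperHalfPlane.mdifferentiable_iff.mp Jfun_mdiff_impl
  have hconst := IsOpen.is_const_of_deriv_eq_zero (f := Jfun ∘ ofComplex)
    (s := {z : ℂ | 0 < z.im}) isOpen_upperHalfPlaneSet (convex_halfSpace_im_gt 0).isPreconnected
    hdiff (fun w hw => hcon' ⟨w, hw⟩) (x := (UpperHalfPlane.I : ℂ)) (y := (rho : ℂ))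
    UpperHalfPlane.I.im_pos rho.im_pos
  simp only [Function.comp_apply, ofComplex_apply] at hconst
  rw [Jfun_I_impl, Jfun_rho_impl] at hconst
  norm_num at hconst

/-- The derivative of `j` is `c · E₄² E₆ / Δ` with `c ≠ 0`. -/
theorem exists_deriv_Jfun : ∃ c : ℂ, c ≠ 0 ∧ ∀ z : ℍ,
    deriv (Jfun ∘ ofComplex) (z : ℂ) = c * E₄ z ^ 2 * E₆ z / discriminant z := by
  obtain ⟨cW, hcW⟩ := exists_Wfun_eq
  have key : ∀ z : ℍ, deriv (Jfun ∘ ofComplex) (z : ℂ) =
      (-(2 * Real.pi * Complex.I) * cW / 1728) * E₄ z ^ 2 * E₆ z / discriminant z := by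
    intro z
    have h := D_Jfun z
    rw [hcW z] at h
    simp only [Derivative.normalizedDerivOfComplex] at h
    have hpi : (2 * (Real.pi : ℂ) * Complex.I) ≠ 0 := Complex.two_pi_I_ne_zero
    have hΔ := discriminant_ne_zero z
    have e : deriv (Jfun ∘ ofComplex) (z : ℂ) = (2 * Real.pi * Complex.I) *
        ((2 * Real.pi * Complex.I)⁻¹ * deriv (Jfun ∘ ofComplex) (z : ℂ)) := by
      field_simp
    rw [e, h]
    field_simp
  refine ⟨-(2 * Real.pi * Complex.I) * cW / 1728, ?_, key⟩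
  intro hc
  obtain ⟨z, hz⟩ := exists_deriv_Jfun_ne_zero
  apply hz
  rw [key z, hc]
  simp

end Fermat.Agent.S24
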