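import Fermat.Agent.S24.Ana.J.QExp

/-!
# S24 / B1 / J: the `q`-expansion of `j`
-/

set_option autoImplicit false

noncomputable section

namespace Fermat.Agent.S24

open UpperHalfPlane ModularForm ModularCurve
open scoped MatrixGroups

/-- `qOf z` is Mathlib's `q`-parameter of period `1`. -/
theorem JHasSum.qOf_eq_qParam (z : ℍ) : qOf z = Function.Periodic.qParam 1 (z : ℂ) := by
  simp [qOf, Function.Periodic.qParam]

theorem norm_qOf_lt_one (z : ℍ) : ‖qOf z‖ < 1 := by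
  rw [JHasSum.qOf_eq_qParam]
  exact Function.Periodic.norm_qParam_lt_one one_pos z.im_pos

theorem qOf_ne_zero (z : ℍ) : qOf z ≠ 0 := Complex.exp_ne_zero _

/-- `E₄ z = (cusp function of E₄)(q)`. -/
theorem E4_eq_cuspFunction (z : ℍ) : E₄ z = cuspFunction 1 E₄ (qOf z) := by
  rw [JHasSum.qOf_eq_qParam]
  exact (SlashInvariantFormClass.eq_cuspFunction E₄ z one_mem_strictPeriods_SL one_ne_zero).symm

/-- `Δ z = q ∏ (1 - qⁿ)²⁴`. -/
theorem disc_eq_qOf_mul (z : ℍ) :
    discriminant z = qOf z * (∏' n : ℕ, (1 - qOf z ^ (n + 1))) ^ 24 := by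
  rw [ModularForm.discriminant_eq_q_prod, ← JHasSum.qOf_eq_qParam,
    ← (ModularForm.multipliable_one_sub_pow (norm_qOf_lt_one z)).tprod_pow 24]
  simp only [eta_q, ← JHasSum.qOf_eq_qParam]

/-- Coefficients of the formal `jq = q⁻¹ · jNumQ`. -/
theorem jq_coeff (n : ℤ) :
    jq.coeff n = if n < -1 then 0 else ((jNum.coeff (n + 1).toNat : ℤ) : ℚ) := by
  split_ifs with h
  · exact coeff_jq_of_lt h
  · obtain ⟨m, hm⟩ := Int.eq_ofNat_of_zero_le (show 0 ≤ n + 1 by omega)
    rw [jq, HahnSeries.coeff_single_mul, one_mul, sub_neg_eq_add, hm,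
      HahnSeries.ofPowerSeries_apply_coeff, jNumQ, PowerSeries.coeff_map, Int.toNat_natCast]
    rfl

theorem Jfun_hasSum_impl (z : ℍ) :
    HasSum (fun n : ℤ => ((jq.coeff n : ℚ) : ℂ) * qOf z ^ n) (Jfun z) := by
  have hq := norm_qOf_lt_one z
  have hq0 := qOf_ne_zero z
  have hJ : Jfun z = (qOf z)⁻¹ *
      (cuspFunction 1 E₄ (qOf z) ^ 3 / (∏' n : ℕ, (1 - qOf z ^ (n + 1))) ^ 24) := by
    rw [Jfun, E4_eq_cuspFunction, disc_eq_qOf_mul]
    simp only [div_eq_mul_inv, mul_inv]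
    ring
  rw [hJ]
  have h2 := (jNum_hasSum hq).mul_left (qOf z)⁻¹
  have he : Function.Injective (fun m : ℕ => (m : ℤ) - 1) := fun a b h => by
    simpa using h
  have hfun : ((fun n : ℤ => ((jq.coeff n : ℚ) : ℂ) * qOf z ^ n) ∘ fun m : ℕ => (m : ℤ) - 1) =
      fun m : ℕ => (qOf z)⁻¹ * (((jNum.coeff m : ℤ) : ℂ) * qOf z ^ m) := by
    funext m
    simp only [Function.comp]
    rw [jq_coeff, if_neg (by omega), sub_add_cancel, Int.toNat_natCast, Rat.cast_intCast,
      zpow_sub₀ hq0, zpow_natCast, zpow_one]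
    field_simp
  rw [← he.hasSum_iff, hfun]
  · exact h2
  · intro n hn
    have hlt : n < -1 := by
      by_contra h
      refine hn ⟨(n + 1).toNat, ?_⟩
      have : ((n + 1).toNat : ℤ) = n + 1 := Int.toNat_of_nonneg (by omega)
      simp only [this]
      ring
    rw [jq_coeff, if_pos hlt]
    simp

end Fermat.Agent.S24
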