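import Fermat.Agent.S24.Ana.Conv.Taylor

/-!
# S24 / B1 / J: general facts on holomorphic functions on `ℍ`
(analyticity of `f ∘ ofComplex`, identity theorem, composition with Möbius transformations)
-/

set_option autoImplicit false

noncomputable section

namespace Fermat.Agent.S24

open UpperHalfPlane Filter Topology
open scoped MatrixGroups Manifold

theorem analyticAt_comp_ofComplex {f : ℍ → ℂ} (hf : MDifferentiable 𝓘(ℂ) 𝓘(ℂ) f) (z : ℍ) :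
    AnalyticAt ℂ (f ∘ ofComplex) (z : ℂ) :=
  (UpperHalfPlane.mdifferentiable_iff.mp hf).analyticAt
    (isOpen_upperHalfPlaneSet.mem_nhds z.im_pos)

/-- Identity theorem on `ℍ`: a holomorphic function vanishing near one point vanishes. -/
theorem eq_zero_of_eventually_zero {f : ℍ → ℂ} (hf : MDifferentiable 𝓘(ℂ) 𝓘(ℂ) f) (z : ℍ)
    (h : ∀ᶠ w in 𝓝 (z : ℂ), (f ∘ ofComplex) w = 0) : f = 0 := by
  have han : AnalyticOnNhd ℂ (f ∘ ofComplex) {w : ℂ | 0 < w.im} :=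
    (UpperHalfPlane.mdifferentiable_iff.mp hf).analyticOnNhd isOpen_upperHalfPlaneSet
  have hpre : IsPreconnected {w : ℂ | 0 < w.im} := (convex_halfSpace_im_gt 0).isPreconnected
  have hz : (z : ℂ) ∈ {w : ℂ | 0 < w.im} := z.im_pos
  have key := han.eqOn_zero_of_preconnected_of_eventuallyEq_zero hpre hz h
  funext w
  have hw : (w : ℂ) ∈ {w : ℂ | 0 < w.im} := w.im_pos
  have := key hw
  simpa [ofComplex_apply] using this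

/-- A nonzero holomorphic function on `ℍ` has finite order of vanishing everywhere. -/
theorem analyticOrderAt_ne_top_of_ne_zero {f : ℍ → ℂ} (hf : MDifferentiable 𝓘(ℂ) 𝓘(ℂ) f)
    (hne : f ≠ 0) (z : ℍ) : analyticOrderAt (f ∘ ofComplex) (z : ℂ) ≠ ⊤ := by
  intro htop
  exact hne (eq_zero_of_eventually_zero hf z (analyticOrderAt_eq_top.mp htop))

/-- Two holomorphic functions on `ℍ` with the same Taylor series at one point are equal. -/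
theorem eq_of_taylorAt_eq {f g : ℍ → ℂ} (hf : MDifferentiable 𝓘(ℂ) 𝓘(ℂ) f)
    (hg : MDifferentiable 𝓘(ℂ) 𝓘(ℂ) g) (z₀ : ℍ)
    (h : taylorAt (z₀ : ℂ) (f ∘ ofComplex) = taylorAt (z₀ : ℂ) (g ∘ ofComplex)) : f = g := by
  have hfa := analyticAt_comp_ofComplex hf z₀
  have hga := analyticAt_comp_ofComplex hg z₀
  have hfg : MDifferentiable 𝓘(ℂ) 𝓘(ℂ) (f - g) := hf.sub hg
  have hsub : taylorAt (z₀ : ℂ) ((f - g) ∘ ofComplex) = 0 := by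
    have hcomp : (f - g) ∘ ofComplex = f ∘ ofComplex - g ∘ ofComplex := rfl
    rw [hcomp, taylorAt_sub hfa hga, h, sub_self]
  have hev := (taylorAt_eq_zero_iff (analyticAt_comp_ofComplex hfg z₀)).mp hsub
  exact sub_eq_zero.mp (eq_zero_of_eventually_zero hfg z₀ hev)

/-- Composition with the action of `γ ∈ SL₂(ℤ)` preserves holomorphy. -/
theorem mdiff_comp_smul (γ : SL(2, ℤ)) {f : ℍ → ℂ} (hf : MDifferentiable 𝓘(ℂ) 𝓘(ℂ) f) :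
    MDifferentiable 𝓘(ℂ) 𝓘(ℂ) (fun z : ℍ => f (γ • z)) := by
  have h : MDifferentiable 𝓘(ℂ) 𝓘(ℂ)
      (fun τ : ℍ => (Matrix.SpecialLinearGroup.mapGL ℝ γ) • τ) :=
    UpperHalfPlane.mdifferentiable_smul (by simp)
  exact hf.comp h

/-- The value of the Möbius map at `z₀ ∈ ℍ`. -/
theorem coe_smul_eq (γ : SL(2, ℤ)) (z₀ : ℍ) :
    ((γ • z₀ : ℍ) : ℂ) = (((γ 0 0 : ℤ) : ℂ) * z₀ + ((γ 0 1 : ℤ) : ℂ)) /
        (((γ 1 0 : ℤ) : ℂ) * z₀ + ((γ 1 1 : ℤ) : ℂ)) := by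
  rw [UpperHalfPlane.coe_specialLinearGroup_apply]
  simp

theorem denom_ne_zero' (γ : SL(2, ℤ)) (z₀ : ℍ) :
    ((γ 1 0 : ℤ) : ℂ) * z₀ + ((γ 1 1 : ℤ) : ℂ) ≠ 0 := by
  have := UpperHalfPlane.denom_ne_zero (Matrix.SpecialLinearGroup.mapGL ℝ γ) z₀
  simpa [UpperHalfPlane.denom] using this

/-- Near `z₀ ∈ ℍ`, `(f ∘ (γ • ·)) ∘ ofComplex` is `(f ∘ ofComplex)` composed with the Möbius map
`w ↦ (a w + b)/(c w + d)`. -/
theorem comp_smul_eventuallyEq (γ : SL(2, ℤ)) (f : ℍ → ℂ) (z₀ : ℍ) :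
    ((fun z : ℍ => f (γ • z)) ∘ ofComplex) =ᶠ[𝓝 (z₀ : ℂ)]
      (f ∘ ofComplex) ∘ (fun w : ℂ => (((γ 0 0 : ℤ) : ℂ) * w + ((γ 0 1 : ℤ) : ℂ)) /
        (((γ 1 0 : ℤ) : ℂ) * w + ((γ 1 1 : ℤ) : ℂ))) := by
  filter_upwards [isOpen_upperHalfPlaneSet.mem_nhds z₀.im_pos] with w hw
  have hw' : 0 < w.im := hw
  have h1 := coe_smul_eq γ ⟨w, hw'⟩
  simp only [Function.comp_apply, ofComplex_apply_of_im_pos hw']
  have h2 : (((γ 0 0 : ℤ) : ℂ) * w + ((γ 0 1 : ℤ) : ℂ)) /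
        (((γ 1 0 : ℤ) : ℂ) * w + ((γ 1 1 : ℤ) : ℂ)) = ((γ • (⟨w, hw'⟩ : ℍ) : ℍ) : ℂ) := h1.symm
  rw [h2, ofComplex_apply]

/-- The Möbius map of `γ` has derivative `1/(c z₀ + d)²` at `z₀ ∈ ℍ`. -/
theorem hasDerivAt_moebius (γ : SL(2, ℤ)) (z₀ : ℍ) :
    HasDerivAt (fun w : ℂ => (((γ 0 0 : ℤ) : ℂ) * w + ((γ 0 1 : ℤ) : ℂ)) /
        (((γ 1 0 : ℤ) : ℂ) * w + ((γ 1 1 : ℤ) : ℂ)))
      (1 / (((γ 1 0 : ℤ) : ℂ) * z₀ + ((γ 1 1 : ℤ) : ℂ)) ^ 2) (z₀ : ℂ) := by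
  have hden := denom_ne_zero' γ z₀
  have hnum : HasDerivAt (fun w : ℂ => ((γ 0 0 : ℤ) : ℂ) * w + ((γ 0 1 : ℤ) : ℂ))
      ((γ 0 0 : ℤ) : ℂ) (z₀ : ℂ) := by
    simpa using ((hasDerivAt_id (z₀ : ℂ)).const_mul ((γ 0 0 : ℤ) : ℂ)).add_const ((γ 0 1 : ℤ) : ℂ)
  have hd : HasDerivAt (fun w : ℂ => ((γ 1 0 : ℤ) : ℂ) * w + ((γ 1 1 : ℤ) : ℂ))
      ((γ 1 0 : ℤ) : ℂ) (z₀ : ℂ) := by
    simpa using ((hasDerivAt_id (z₀ : ℂ)).const_mul ((γ 1 0 : ℤ) : ℂ)).add_const ((γ 1 1 : ℤ) : ℂ)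
  have hq := hnum.div hd hden
  have hdet : ((γ 0 0 : ℤ) : ℂ) * ((γ 1 1 : ℤ) : ℂ) - ((γ 0 1 : ℤ) : ℂ) * ((γ 1 0 : ℤ) : ℂ) = 1 := by
    have h := γ.det_coe
    rw [Matrix.det_fin_two] at h
    exact_mod_cast h
  have hval : ((γ 0 0 : ℤ) : ℂ) * (((γ 1 0 : ℤ) : ℂ) * z₀ + ((γ 1 1 : ℤ) : ℂ)) -
      (((γ 0 0 : ℤ) : ℂ) * z₀ + ((γ 0 1 : ℤ) : ℂ)) * ((γ 1 0 : ℤ) : ℂ) = 1 := by
    linear_combination hdet
  rw [hval] at hq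
  exact hq

/-- Composition with `γ` transports the order of vanishing. -/
theorem analyticOrderAt_comp_smul (γ : SL(2, ℤ)) {h : ℍ → ℂ} (hh : MDifferentiable 𝓘(ℂ) 𝓘(ℂ) h)
    (z₀ : ℍ) :
    analyticOrderAt ((fun z : ℍ => h (γ • z)) ∘ ofComplex) (z₀ : ℂ) =
      analyticOrderAt (h ∘ ofComplex) ((γ • z₀ : ℍ) : ℂ) := by
  have _hh := hh
  have hden := denom_ne_zero' γ z₀
  have hder := hasDerivAt_moebius γ z₀
  have han : AnalyticAt ℂ (fun w : ℂ => (((γ 0 0 : ℤ) : ℂ) * w + ((γ 0 1 : ℤ) : ℂ)) /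
        (((γ 1 0 : ℤ) : ℂ) * w + ((γ 1 1 : ℤ) : ℂ))) (z₀ : ℂ) := by
    apply AnalyticAt.div
    · fun_prop
    · fun_prop
    · exact hden
  have hne : deriv (fun w : ℂ => (((γ 0 0 : ℤ) : ℂ) * w + ((γ 0 1 : ℤ) : ℂ)) /
        (((γ 1 0 : ℤ) : ℂ) * w + ((γ 1 1 : ℤ) : ℂ))) (z₀ : ℂ) ≠ 0 := by
    rw [hder.deriv]
    exact one_div_ne_zero (pow_ne_zero 2 hden)
  rw [analyticOrderAt_congr (comp_smul_eventuallyEq γ h z₀),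
    analyticOrderAt_comp_of_deriv_ne_zero han hne, coe_smul_eq]

end Fermat.Agent.S24
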