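import Fermat.Agent.S24.Ana.J.Basic
import Fermat.Agent.S24.Ana.J.Holo
import Fermat.Agent.S24.Ana.J.Deriv

/-!
# S24 / B1 / J: the order of vanishing of `j - j(z₀)` at `z₀`
-/

set_option autoImplicit false

noncomputable section

namespace Fermat.Agent.S24

open UpperHalfPlane ModularForm Filter Topology
open scoped MatrixGroups Manifold

/-! ### Auxiliary facts -/

theorem JOrder.analyticAt_E4 (z₀ : ℍ) :
    AnalyticAt ℂ ((fun z : ℍ => E₄ z) ∘ ofComplex) (z₀ : ℂ) :=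
  analyticAt_comp_ofComplex E4_mdiff z₀

theorem JOrder.analyticAt_E6 (z₀ : ℍ) :
    AnalyticAt ℂ ((fun z : ℍ => E₆ z) ∘ ofComplex) (z₀ : ℂ) :=
  analyticAt_comp_ofComplex E6_mdiff z₀

theorem JOrder.analyticAt_disc (z₀ : ℍ) :
    AnalyticAt ℂ ((fun z : ℍ => discriminant z) ∘ ofComplex) (z₀ : ℂ) :=
  analyticAt_comp_ofComplex disc_mdiff z₀

theorem JOrder.analyticAt_Jfun (z₀ : ℍ) : AnalyticAt ℂ (Jfun ∘ ofComplex) (z₀ : ℂ) :=
  analyticAt_comp_ofComplex Jfun_mdiff_impl z₀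

/-- The inverse of the discriminant is analytic of order `0`. -/
theorem JOrder.analyticAt_disc_inv (z₀ : ℍ) :
    AnalyticAt ℂ ((fun z : ℍ => discriminant z) ∘ ofComplex)⁻¹ (z₀ : ℂ) := by
  refine (JOrder.analyticAt_disc z₀).inv ?_
  simp only [Function.comp_apply, ofComplex_apply]
  exact discriminant_ne_zero z₀

theorem JOrder.order_disc_inv (z₀ : ℍ) :
    analyticOrderAt ((fun z : ℍ => discriminant z) ∘ ofComplex)⁻¹ (z₀ : ℂ) = 0 := by
  rw [(JOrder.analyticAt_disc_inv z₀).analyticOrderAt_eq_zero]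
  simp only [Pi.inv_apply, Function.comp_apply, ofComplex_apply]
  exact inv_ne_zero (discriminant_ne_zero z₀)

/-- `E₄` and `E₆` have no common zero. -/
theorem JOrder.E4_ne_zero_of_E6 (z₀ : ℍ) (h : E₆ z₀ = 0) : E₄ z₀ ≠ 0 := by
  intro h4
  have h1 := disc_eq z₀
  rw [h, h4] at h1
  have h2 : discriminant z₀ = 0 := by
    have : (1728 : ℂ) * discriminant z₀ = 0 := by rw [h1]; ring
    rcases mul_eq_zero.mp this with h3 | h3
    · norm_num at h3
    · exact h3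
  exact discriminant_ne_zero z₀ h2

theorem JOrder.E6_ne_zero_of_E4 (z₀ : ℍ) (h : E₄ z₀ = 0) : E₆ z₀ ≠ 0 :=
  fun h6 => JOrder.E4_ne_zero_of_E6 z₀ h6 h

theorem JOrder.order_E4_eq_zero (z₀ : ℍ) (h : E₄ z₀ ≠ 0) :
    analyticOrderAt ((fun z : ℍ => E₄ z) ∘ ofComplex) (z₀ : ℂ) = 0 := by
  rw [(JOrder.analyticAt_E4 z₀).analyticOrderAt_eq_zero]
  simpa only [Function.comp_apply, ofComplex_apply] using h

theorem JOrder.order_E6_eq_zero (z₀ : ℍ) (h : E₆ z₀ ≠ 0) :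
    analyticOrderAt ((fun z : ℍ => E₆ z) ∘ ofComplex) (z₀ : ℂ) = 0 := by
  rw [(JOrder.analyticAt_E6 z₀).analyticOrderAt_eq_zero]
  simpa only [Function.comp_apply, ofComplex_apply] using h

/-- `E₄` is not identically zero. -/
theorem JOrder.E4_fun_ne_zero : (fun z : ℍ => E₄ z) ≠ 0 := by
  intro h
  have h1 : E₄ UpperHalfPlane.I = 0 := congrFun h UpperHalfPlane.I
  have h2 : Jfun UpperHalfPlane.I = 0 := (Jfun_eq_zero_iff _).mpr h1
  rw [Jfun_I_impl] at h2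
  norm_num at h2

/-- `E₆` is not identically zero. -/
theorem JOrder.E6_fun_ne_zero : (fun z : ℍ => E₆ z) ≠ 0 := by
  intro h
  have h1 : E₆ rho = 0 := congrFun h rho
  have h2 : Jfun rho = 1728 := (Jfun_eq_1728_iff _).mpr h1
  rw [Jfun_rho_impl] at h2
  norm_num at h2

/-- The order of the derivative of `j` at `z₀` in terms of the orders of `E₄` and `E₆`. -/
theorem JOrder.order_deriv (z₀ : ℍ) :
    analyticOrderAt (deriv (Jfun ∘ ofComplex)) (z₀ : ℂ) =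
      2 • analyticOrderAt ((fun z : ℍ => E₄ z) ∘ ofComplex) (z₀ : ℂ) +
        analyticOrderAt ((fun z : ℍ => E₆ z) ∘ ofComplex) (z₀ : ℂ) := by
  obtain ⟨c, hc0, hc⟩ := exists_deriv_Jfun
  have hev : deriv (Jfun ∘ ofComplex) =ᶠ[𝓝 (z₀ : ℂ)]
      ((fun _ : ℂ => c) * ((fun z : ℍ => E₄ z) ∘ ofComplex) ^ 2 *
        ((fun z : ℍ => E₆ z) ∘ ofComplex)) * ((fun z : ℍ => discriminant z) ∘ ofComplex)⁻¹ := by
    filter_upwards [isOpen_upperHalfPlaneSet.mem_nhds z₀.im_pos] with w hw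
    have hw' : ((ofComplex w : ℍ) : ℂ) = w := by
      rw [ofComplex_apply_of_im_pos hw, coe_mk]
    have h1 := hc (ofComplex w)
    rw [hw'] at h1
    rw [h1]
    simp only [Pi.mul_apply, Pi.pow_apply, Pi.inv_apply, Function.comp_apply, div_eq_mul_inv]
  have hA4 := JOrder.analyticAt_E4 z₀
  have hA6 := JOrder.analyticAt_E6 z₀
  have hAc : AnalyticAt ℂ (fun _ : ℂ => c) (z₀ : ℂ) := analyticAt_const
  have hc_ord : analyticOrderAt (fun _ : ℂ => c) (z₀ : ℂ) = 0 := by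
    rw [hAc.analyticOrderAt_eq_zero]
    exact hc0
  rw [analyticOrderAt_congr hev,
    analyticOrderAt_mul ((hAc.mul (hA4.pow 2)).mul hA6) (JOrder.analyticAt_disc_inv z₀),
    analyticOrderAt_mul (hAc.mul (hA4.pow 2)) hA6, analyticOrderAt_mul hAc (hA4.pow 2),
    analyticOrderAt_pow hA4, hc_ord, JOrder.order_disc_inv, zero_add, add_zero]

/-- The order of `j - j(z₀)` at `z₀` in terms of the orders of `E₄` and `E₆`. -/
theorem JOrder.order_eq (z₀ : ℍ) :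
    analyticOrderAt (fun w : ℂ => Jfun (ofComplex w) - Jfun z₀) (z₀ : ℂ) =
      2 • analyticOrderAt ((fun z : ℍ => E₄ z) ∘ ofComplex) (z₀ : ℂ) +
        analyticOrderAt ((fun z : ℍ => E₆ z) ∘ ofComplex) (z₀ : ℂ) + 1 := by
  have h := (JOrder.analyticAt_Jfun z₀).analyticOrderAt_deriv_add_one
  simp only [Function.comp_apply, ofComplex_apply] at h
  rw [← h, JOrder.order_deriv]

/-- If `j(z₀) = 0` then the order of `j - j(z₀)` is three times the order of `E₄`. -/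
theorem JOrder.order_eq_of_zero (z₀ : ℍ) (h0 : Jfun z₀ = 0) :
    analyticOrderAt (fun w : ℂ => Jfun (ofComplex w) - Jfun z₀) (z₀ : ℂ) =
      3 • analyticOrderAt ((fun z : ℍ => E₄ z) ∘ ofComplex) (z₀ : ℂ) := by
  have hfun : (fun w : ℂ => Jfun (ofComplex w) - Jfun z₀) =
      ((fun z : ℍ => E₄ z) ∘ ofComplex) ^ 3 * ((fun z : ℍ => discriminant z) ∘ ofComplex)⁻¹ := by
    funext w
    rw [h0, sub_zero]
    simp only [Jfun, Pi.mul_apply, Pi.pow_apply, Pi.inv_apply, Function.comp_apply,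
      div_eq_mul_inv]
  have hA4 := JOrder.analyticAt_E4 z₀
  rw [hfun, analyticOrderAt_mul (hA4.pow 3) (JOrder.analyticAt_disc_inv z₀),
    analyticOrderAt_pow hA4, JOrder.order_disc_inv, add_zero]

/-- If `j(z₀) = 1728` then the order of `j - j(z₀)` is twice the order of `E₆`. -/
theorem JOrder.order_eq_of_1728 (z₀ : ℍ) (h1 : Jfun z₀ = 1728) :
    analyticOrderAt (fun w : ℂ => Jfun (ofComplex w) - Jfun z₀) (z₀ : ℂ) =
      2 • analyticOrderAt ((fun z : ℍ => E₆ z) ∘ ofComplex) (z₀ : ℂ) := by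
  have hfun : (fun w : ℂ => Jfun (ofComplex w) - Jfun z₀) =
      ((fun z : ℍ => E₆ z) ∘ ofComplex) ^ 2 * ((fun z : ℍ => discriminant z) ∘ ofComplex)⁻¹ := by
    funext w
    rw [h1, Jfun_sub_1728]
    simp only [Pi.mul_apply, Pi.pow_apply, Pi.inv_apply, Function.comp_apply, div_eq_mul_inv]
  have hA6 := JOrder.analyticAt_E6 z₀
  rw [hfun, analyticOrderAt_mul (hA6.pow 2) (JOrder.analyticAt_disc_inv z₀),
    analyticOrderAt_pow hA6, JOrder.order_disc_inv, add_zero]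

/-! ### The main statements -/

/-- Generic case: simple `j`-value. -/
theorem Jfun_order_generic (z₀ : ℍ) (h0 : Jfun z₀ ≠ 0) (h1 : Jfun z₀ ≠ 1728) :
    analyticOrderAt (fun w : ℂ => Jfun (ofComplex w) - Jfun z₀) (z₀ : ℂ) = 1 := by
  have h4 : E₄ z₀ ≠ 0 := fun h => h0 ((Jfun_eq_zero_iff z₀).mpr h)
  have h6 : E₆ z₀ ≠ 0 := fun h => h1 ((Jfun_eq_1728_iff z₀).mpr h)
  rw [JOrder.order_eq, JOrder.order_E4_eq_zero z₀ h4, JOrder.order_E6_eq_zero z₀ h6]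
  simp

/-- `E₄` has a simple zero wherever it vanishes. -/
theorem E4_order_eq_one (z₀ : ℍ) (h : E₄ z₀ = 0) :
    analyticOrderAt ((fun z : ℍ => E₄ z) ∘ ofComplex) (z₀ : ℂ) = 1 := by
  have hJ : Jfun z₀ = 0 := (Jfun_eq_zero_iff z₀).mpr h
  have htop := analyticOrderAt_ne_top_of_ne_zero E4_mdiff JOrder.E4_fun_ne_zero z₀
  have e1 := JOrder.order_eq z₀
  rw [JOrder.order_eq_of_zero z₀ hJ,
    JOrder.order_E6_eq_zero z₀ (JOrder.E6_ne_zero_of_E4 z₀ h), add_zero] at e1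
  obtain ⟨n, hn⟩ := ENat.ne_top_iff_exists.mp htop
  rw [← hn] at e1 ⊢
  rw [nsmul_eq_mul, nsmul_eq_mul] at e1
  have e2 : 3 * n = 2 * n + 1 := by exact_mod_cast e1
  have e3 : n = 1 := by omega
  rw [e3]
  rfl

/-- `E₆` has a simple zero wherever it vanishes. -/
theorem E6_order_eq_one (z₀ : ℍ) (h : E₆ z₀ = 0) :
    analyticOrderAt ((fun z : ℍ => E₆ z) ∘ ofComplex) (z₀ : ℂ) = 1 := by
  have hJ : Jfun z₀ = 1728 := (Jfun_eq_1728_iff z₀).mpr h
  have htop := analyticOrderAt_ne_top_of_ne_zero E6_mdiff JOrder.E6_fun_ne_zero z₀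
  have e1 := JOrder.order_eq z₀
  rw [JOrder.order_eq_of_1728 z₀ hJ,
    JOrder.order_E4_eq_zero z₀ (JOrder.E4_ne_zero_of_E6 z₀ h), smul_zero, zero_add] at e1
  obtain ⟨n, hn⟩ := ENat.ne_top_iff_exists.mp htop
  rw [← hn] at e1 ⊢
  rw [nsmul_eq_mul] at e1
  have e2 : 2 * n = n + 1 := by exact_mod_cast e1
  have e3 : n = 1 := by omega
  rw [e3]
  rfl

theorem Jfun_order_zero (z₀ : ℍ) (h0 : Jfun z₀ = 0) :
    analyticOrderAt (fun w : ℂ => Jfun (ofComplex w) - Jfun z₀) (z₀ : ℂ) = 3 := by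
  rw [JOrder.order_eq_of_zero z₀ h0, E4_order_eq_one z₀ ((Jfun_eq_zero_iff z₀).mp h0)]
  rfl

theorem Jfun_order_1728 (z₀ : ℍ) (h1 : Jfun z₀ = 1728) :
    analyticOrderAt (fun w : ℂ => Jfun (ofComplex w) - Jfun z₀) (z₀ : ℂ) = 2 := by
  rw [JOrder.order_eq_of_1728 z₀ h1, E6_order_eq_one z₀ ((Jfun_eq_1728_iff z₀).mp h1)]
  rfl

theorem Jfun_order_impl (z₀ : ℍ) :
    analyticOrderAt (fun w : ℂ => Jfun (UpperHalfPlane.ofComplex w) - Jfun z₀) (z₀ : ℂ) =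
      if Jfun z₀ = 0 then 3 else if Jfun z₀ = 1728 then 2 else 1 := by
  by_cases h0 : Jfun z₀ = 0
  · rw [if_pos h0]; exact Jfun_order_zero z₀ h0
  · rw [if_neg h0]
    by_cases h1 : Jfun z₀ = 1728
    · rw [if_pos h1]; exact Jfun_order_1728 z₀ h1
    · rw [if_neg h1]; exact Jfun_order_generic z₀ h0 h1

end Fermat.Agent.S24
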