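import Fermat.Agent.S24.Ana.Conv.Eta

/-!
# S24 / B1 / J: the formal `jNum = eisenstein4³ / etaProd²⁴` converges on the unit disc
-/

set_option autoImplicit false

noncomputable section

namespace Fermat.Agent.S24

open UpperHalfPlane ModularForm ModularCurve
open scoped MatrixGroups

/-- The `q`-expansion of `E₄` is the Prelude's formal `eisenstein4 = 1 + 240 ∑ σ₃(n) qⁿ`. -/
theorem taylorAt_cuspFunction_E4 :
    taylorAt 0 (cuspFunction 1 E₄) = eisenstein4.map (Int.castRingHom ℂ) := by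
  ext n
  rw [coeff_taylorAt, ← qExpansion_coeff,
    EisensteinSeries.E_qExpansion_coeff (by norm_num : 3 ≤ 4) ⟨2, rfl⟩ n, PowerSeries.coeff_map,
    eisenstein4, PowerSeries.coeff_mk]
  split_ifs with hn
  · simp
  · have hb : bernoulli 4 = -1 / 30 := by decide +kernel
    rw [hb, ArithmeticFunction.sigma_apply]
    push_cast
    norm_num

theorem differentiableOn_cuspFunction_E4 :
    DifferentiableOn ℂ (cuspFunction 1 E₄) (Metric.ball 0 1) := by
  intro q hq
  exact (ModularFormClass.differentiableAt_cuspFunction E₄ one_pos one_mem_strictPeriods_SL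
    (mem_ball_zero_iff.mp hq)).differentiableWithinAt

theorem tprod_one_sub_pow_ne_zero {q : ℂ} (hq : ‖q‖ < 1) : ∏' n : ℕ, (1 - q ^ (n + 1)) ≠ 0 := by
  have h := tprod_one_add_ne_zero_of_summable (f := fun n : ℕ => -q ^ (n + 1)) ?_ ?_
  · simpa [sub_eq_add_neg] using h
  · intro i h0
    have h1 : q ^ (i + 1) = 1 := by
      have h2 : (1 : ℂ) - q ^ (i + 1) = 0 := by rw [sub_eq_add_neg]; exact h0
      exact (sub_eq_zero.mp h2).symm
    have h3 : ‖q‖ ^ (i + 1) = 1 := by rw [← norm_pow, h1, norm_one]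
    have h4 : ‖q‖ ^ (i + 1) < 1 := pow_lt_one₀ (norm_nonneg q) hq (Nat.succ_ne_zero i)
    exact absurd h3 h4.ne
  · have hs : Summable fun n : ℕ => ‖q‖ ^ (n + 1) :=
      (summable_nat_add_iff 1).mpr (summable_geometric_of_lt_one (norm_nonneg _) hq)
    simpa [norm_neg, norm_pow] using hs

/-- The analytic function `q ↦ E₄(q)³ / ∏ (1 - qⁿ)²⁴` is holomorphic on the open unit disc. -/
theorem QExp.differentiableOn_jFun :
    DifferentiableOn ℂ
      (fun q : ℂ => cuspFunction 1 E₄ q ^ 3 / (∏' n : ℕ, (1 - q ^ (n + 1))) ^ 24)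
      (Metric.ball 0 1) := by
  refine DifferentiableOn.div (differentiableOn_cuspFunction_E4.pow 3)
    (ModularForm.differentiableOn_tprod_one_sub_pow.pow 24) ?_
  intro q hq
  exact pow_ne_zero _ (tprod_one_sub_pow_ne_zero (mem_ball_zero_iff.mp hq))

/-- The Taylor series at `0` of `q ↦ E₄(q)³ / ∏ (1 - qⁿ)²⁴` is the Prelude's `jNum`. -/
theorem taylorAt_jNum :
    taylorAt 0 (fun q : ℂ => cuspFunction 1 E₄ q ^ 3 / (∏' n : ℕ, (1 - q ^ (n + 1))) ^ 24) =
      jNum.map (Int.castRingHom ℂ) := by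
  have hball : Metric.ball (0 : ℂ) 1 ∈ nhds (0 : ℂ) := Metric.ball_mem_nhds 0 one_pos
  have hE : AnalyticAt ℂ (cuspFunction 1 E₄) 0 :=
    differentiableOn_cuspFunction_E4.analyticAt hball
  have hP : AnalyticAt ℂ (fun q : ℂ => ∏' n : ℕ, (1 - q ^ (n + 1))) 0 :=
    ModularForm.differentiableOn_tprod_one_sub_pow.analyticAt hball
  have hh : AnalyticAt ℂ
      (fun q : ℂ => cuspFunction 1 E₄ q ^ 3 / (∏' n : ℕ, (1 - q ^ (n + 1))) ^ 24) 0 :=
    QExp.differentiableOn_jFun.analyticAt hball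
  -- the functional identity `h * P ^ 24 = E ^ 3` near `0`
  have hev : ((fun q : ℂ => cuspFunction 1 E₄ q ^ 3 / (∏' n : ℕ, (1 - q ^ (n + 1))) ^ 24) *
        (fun q : ℂ => ∏' n : ℕ, (1 - q ^ (n + 1))) ^ 24) =ᶠ[nhds 0] (cuspFunction 1 E₄) ^ 3 := by
    filter_upwards [hball] with q hq
    simp only [Pi.mul_apply, Pi.pow_apply]
    exact div_mul_cancel₀ _ (pow_ne_zero _ (tprod_one_sub_pow_ne_zero (mem_ball_zero_iff.mp hq)))
  have key := taylorAt_congr hev
  rw [taylorAt_mul hh (hP.pow 24), taylorAt_pow hP, taylorAt_pow hE, taylorAt_etaProd,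
    taylorAt_cuspFunction_E4] at key
  -- now a formal computation
  have hunit : (etaProd.map (Int.castRingHom ℂ)) ^ 24 *
      dedekindEtaUnitInv.map (Int.castRingHom ℂ) = 1 := by
    rw [← map_pow, ← map_mul]
    have h1 : etaProd ^ 24 * dedekindEtaUnitInv = 1 := dedekindEtaUnit_mul_inv
    rw [h1, map_one]
  rw [jNum, map_mul, map_pow, ← key, mul_assoc, hunit, mul_one]

/-- The formal `jNum` converges on the open unit disc to `E₄(q)³ / ∏ (1 - qⁿ)²⁴`. -/
theorem jNum_hasSum {q : ℂ} (hq : ‖q‖ < 1) :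
    HasSum (fun n : ℕ => ((jNum.coeff n : ℤ) : ℂ) * q ^ n)
      (cuspFunction 1 E₄ q ^ 3 / (∏' n : ℕ, (1 - q ^ (n + 1))) ^ 24) := by
  have h := taylorAt_zero_hasSum QExp.differentiableOn_jFun hq
  rw [taylorAt_jNum] at h
  simpa [PowerSeries.coeff_map] using h

end Fermat.Agent.S24
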