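import Fermat.Agent.S24.Ana.J.Basic
import Fermat.Agent.S24.Ana.J.LevelOne

/-!
# S24 / B1 / J: `j : ℍ → ℂ` is surjective
-/

set_option autoImplicit false

noncomputable section

namespace Fermat.Agent.S24

open UpperHalfPlane ModularForm
open scoped MatrixGroups Manifold ModularForm

/-- The weight-`0` function `Δ / (E₄³ - cΔ)` is `SL₂(ℤ)`-invariant. -/
theorem Surj.quot_smul_aux (c : ℂ) (γ : SL(2, ℤ)) (z : ℍ) :
    discriminant (γ • z) / (E₄ (γ • z) ^ 3 - c * discriminant (γ • z)) =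
      discriminant z / (E₄ z ^ 3 - c * discriminant z) := by
  have hu : (((γ 1 0 : ℤ) : ℂ) * z + ((γ 1 1 : ℤ) : ℂ)) ^ 12 ≠ 0 := by
    intro h0
    have h1 := disc_smul γ z
    rw [h0, zero_mul] at h1
    exact discriminant_ne_zero (γ • z) h1
  rw [E4_smul γ z, disc_smul γ z]
  rw [show ((((γ 1 0 : ℤ) : ℂ) * z + ((γ 1 1 : ℤ) : ℂ)) ^ 4 * E₄ z) ^ 3 -
        c * ((((γ 1 0 : ℤ) : ℂ) * z + ((γ 1 1 : ℤ) : ℂ)) ^ 12 * discriminant z) =
      (((γ 1 0 : ℤ) : ℂ) * z + ((γ 1 1 : ℤ) : ℂ)) ^ 12 * (E₄ z ^ 3 - c * discriminant z) by ring]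
  exact mul_div_mul_left _ _ hu

/-- For every `c`, the weight-12 form `E₄³ - cΔ` has a zero on `ℍ`.  (Otherwise `Δ/(E₄³ - cΔ)`
would be a level-one modular form of weight `0` tending to `0` at `i∞`, hence identically `0`.) -/
theorem exists_E4_cube_eq (c : ℂ) : ∃ z : ℍ, E₄ z ^ 3 - c * discriminant z = 0 := by
  by_contra hne
  have hne' : ∀ z : ℍ, E₄ z ^ 3 - c * discriminant z ≠ 0 := fun z hz => hne ⟨z, hz⟩
  -- the denominator and the quotient
  let F : ℍ → ℂ := fun z => E₄ z ^ 3 - c * discriminant z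
  let g : ℍ → ℂ := fun z => discriminant z / F z
  -- holomorphy
  have hFhol : MDifferentiable 𝓘(ℂ) 𝓘(ℂ) F :=
    (E4_mdiff.pow 3).sub (disc_mdiff.const_smul c)
  have hol : MDifferentiable 𝓘(ℂ) 𝓘(ℂ) g := disc_mdiff.div hFhol hne'
  -- invariance
  have inv : ∀ γ : SL(2, ℤ), g ∣[(0 : ℤ)] γ = g := by
    intro γ
    have h := slash_eq_self_of_smul 0 g (fun γ z => by
      rw [pow_zero, one_mul]
      exact Surj.quot_smul_aux c γ z) γ
    simpa using h
  -- behaviour at `i∞`
  have hF1 : Filter.Tendsto F atImInfty (nhds 1) := by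
    have h1 : Filter.Tendsto F atImInfty (nhds (1 ^ 3 - c * 0)) :=
      (E4_tendsto_one.pow 3).sub (discriminant_isZeroAtImInfty.const_mul c)
    simpa using h1
  have h0 : Filter.Tendsto g atImInfty (nhds 0) := by
    have h1 : Filter.Tendsto g atImInfty (nhds (0 / 1)) :=
      Filter.Tendsto.div discriminant_isZeroAtImInfty hF1 one_ne_zero
    simpa using h1
  have hz0 : IsZeroAtImInfty g := h0
  have hb : IsBoundedAtImInfty g := hz0.isBoundedAtImInfty
  -- hence `g` is a constant, equal to its limit `0`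
  obtain ⟨a, ha⟩ := ModularFormClass.levelOne_weight_zero_const (mkModularFormL1 0 g hol inv hb)
  rw [coe_mkModularFormL1] at ha
  have ha0 : a = 0 := by
    have h2 : Filter.Tendsto g atImInfty (nhds a) := by
      rw [ha]
      exact tendsto_const_nhds
    exact tendsto_nhds_unique h2 h0
  have hI : g UpperHalfPlane.I = 0 := by
    rw [ha, ha0]
    rfl
  rcases div_eq_zero_iff.mp hI with h | h
  · exact discriminant_ne_zero _ h
  · exact hne' _ h

theorem Jfun_surjective_impl : Function.Surjective Jfun := by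
  intro c
  obtain ⟨z, hz⟩ := exists_E4_cube_eq c
  refine ⟨z, ?_⟩
  unfold Jfun
  rw [div_eq_iff (discriminant_ne_zero z)]
  linear_combination hz

end Fermat.Agent.S24
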